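import Mathlib

/-!
# Cocycles on a coset space (helper28, for S21-D)

For a subgroup `Γ` of a group `G` and the left coset space `Q = G ⧸ Γ`, we fix the section
`Quotient.out` and define the `Γ`-valued cocycle `cocyc g q = (out (g • q))⁻¹ * g * out q`.
-/

namespace Fermat.Agent.H28

variable {G : Type*} [Group G] (Γ : Subgroup G)

/-- The cocycle `γ(g, q) = s(g • q)⁻¹ * g * s(q)`, an element of `Γ`. -/
noncomputable def cocyc (g : G) (q : G ⧸ Γ) : Γ :=
  ⟨(Quotient.out (g • q))⁻¹ * g * Quotient.out q, by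
    rw [mul_assoc, ← QuotientGroup.eq, QuotientGroup.out_eq']
    conv_lhs => rw [← QuotientGroup.out_eq' q]
    rfl⟩

@[simp] lemma coe_cocyc (g : G) (q : G ⧸ Γ) :
    ((cocyc Γ g q : Γ) : G) = (Quotient.out (g • q))⁻¹ * g * Quotient.out q := rfl

lemma cocyc_mul (g h : G) (q : G ⧸ Γ) :
    cocyc Γ (g * h) q = cocyc Γ g (h • q) * cocyc Γ h q := by
  apply Subtype.ext
  simp only [coe_cocyc, Subgroup.coe_mul, mul_smul]
  group

lemma cocyc_one (q : G ⧸ Γ) : cocyc Γ 1 q = 1 := by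
  apply Subtype.ext
  simp [coe_cocyc]

/-- If `g` fixes `q`, the cocycle value is a conjugate of `g`. -/
lemma coe_cocyc_of_smul_eq {g : G} {q : G ⧸ Γ} (h : g • q = q) :
    ((cocyc Γ g q : Γ) : G) = (Quotient.out q)⁻¹ * g * Quotient.out q := by
  rw [coe_cocyc, h]

variable {A : Type*} [AddCommGroup A]

/-- The `A`-valued cochain attached to a homomorphism `φ : Γ → A`. -/
noncomputable def coch (φ : Additive Γ →+ A) (g : G) (q : G ⧸ Γ) : A :=
  φ (Additive.ofMul (cocyc Γ g q))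

lemma coch_mul (φ : Additive Γ →+ A) (g h : G) (q : G ⧸ Γ) :
    coch Γ φ (g * h) q = coch Γ φ g (h • q) + coch Γ φ h q := by
  unfold coch
  rw [cocyc_mul, ofMul_mul, map_add]

lemma coch_one (φ : Additive Γ →+ A) (q : G ⧸ Γ) : coch Γ φ 1 q = 0 := by
  unfold coch
  rw [cocyc_one, ofMul_one, map_zero]

lemma coch_pow (φ : Additive Γ →+ A) (g : G) (n : ℕ) (q : G ⧸ Γ) :
    coch Γ φ (g ^ n) q = ∑ i ∈ Finset.range n, coch Γ φ g (g ^ i • q) := by
  induction n with
  | zero => simp [coch_one]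
  | succ n ih =>
    rw [pow_succ', coch_mul, Finset.sum_range_succ, ih, add_comm]

end Fermat.Agent.H28
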