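import Mathlib

/-!
# Kernels of `1 + σ` and `1 + σ + σ²` on functions on a finite set (helper28, for S21-D)
-/

namespace Fermat.Agent.H28

open Module

section PermTrace

variable {Q : Type*}

/-- Pullback of functions along a self-map. -/
noncomputable def pull (σ : Q → Q) : (Q → ℂ) →ₗ[ℂ] (Q → ℂ) := LinearMap.funLeft ℂ ℂ σ

@[simp] lemma pull_apply (σ : Q → Q) (f : Q → ℂ) (q : Q) : pull σ f q = f (σ q) := rfl

variable [Fintype Q] [DecidableEq Q]

lemma trace_pull (σ : Q → Q) :
    LinearMap.trace ℂ (Q → ℂ) (pull σ) = (Fintype.card {q : Q // σ q = q} : ℂ) := by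
  rw [LinearMap.trace_eq_matrix_trace ℂ (Pi.basisFun ℂ Q), Matrix.trace]
  simp only [Matrix.diag_apply, LinearMap.toMatrix_apply, Pi.basisFun_apply, Pi.basisFun_repr,
    pull_apply, Pi.single_apply]
  rw [Finset.sum_boole, Fintype.card_subtype]

/-- If `σ ∘ σ = id`, then `2 dim ker (1 + σ^*) + #Fix σ = #Q`. -/
lemma two_mul_finrank_ker_one_add_pull (σ : Q → Q) (h : ∀ q, σ (σ q) = q) :
    2 * finrank ℂ (LinearMap.ker (1 + pull σ)) + Fintype.card {q : Q // σ q = q}
      = Fintype.card Q := by
  set p : (Q → ℂ) →ₗ[ℂ] (Q → ℂ) := (2⁻¹ : ℂ) • (1 - pull σ) with hp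
  have hproj : LinearMap.IsProj (LinearMap.ker (1 + pull σ)) p := by
    refine ⟨fun f => ?_, fun f hf => ?_⟩
    · rw [LinearMap.mem_ker]
      ext q
      simp only [hp, LinearMap.add_apply, Module.End.one_apply, LinearMap.smul_apply,
        LinearMap.sub_apply, Pi.add_apply, Pi.smul_apply, Pi.sub_apply, pull_apply, h,
        smul_eq_mul, Pi.zero_apply]
      ring
    · rw [LinearMap.mem_ker] at hf
      ext q
      have hq := congrFun hf q
      simp only [LinearMap.add_apply, Module.End.one_apply, Pi.add_apply, pull_apply,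
        Pi.zero_apply] at hq
      simp only [hp, LinearMap.smul_apply, LinearMap.sub_apply, Module.End.one_apply,
        Pi.smul_apply, Pi.sub_apply, pull_apply, smul_eq_mul]
      linear_combination (-(2⁻¹ : ℂ)) * hq
  have htr := hproj.trace
  rw [hp, map_smul, map_sub, LinearMap.trace_one, trace_pull, Module.finrank_fintype_fun_eq_card,
    smul_eq_mul] at htr
  have : (2 * finrank ℂ (LinearMap.ker (1 + pull σ)) + Fintype.card {q : Q // σ q = q} : ℂ)
      = (Fintype.card Q : ℂ) := by
    rw [← htr]; ring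
  exact_mod_cast this

/-- If `σ ∘ σ ∘ σ = id`, then `3 dim ker (1 + σ^* + σ^*σ^*) + 2 #Fix σ = 2 #Q`. -/
lemma three_mul_finrank_ker_one_add_pull (σ : Q → Q) (h : ∀ q, σ (σ (σ q)) = q) :
    3 * finrank ℂ (LinearMap.ker (1 + pull σ + pull σ ∘ₗ pull σ))
      + 2 * Fintype.card {q : Q // σ q = q} = 2 * Fintype.card Q := by
  set p : (Q → ℂ) →ₗ[ℂ] (Q → ℂ) :=
    1 - (3⁻¹ : ℂ) • (1 + pull σ + pull (σ ∘ σ)) with hp
  have hcomp : pull σ ∘ₗ pull σ = pull (σ ∘ σ) := by
    ext f q; rfl
  rw [hcomp]
  have hproj : LinearMap.IsProj (LinearMap.ker (1 + pull σ + pull (σ ∘ σ))) p := by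
    refine ⟨fun f => ?_, fun f hf => ?_⟩
    · rw [LinearMap.mem_ker]
      ext q
      simp only [hp, LinearMap.add_apply, Module.End.one_apply, LinearMap.smul_apply,
        LinearMap.sub_apply, Pi.add_apply, Pi.smul_apply, Pi.sub_apply, pull_apply, h,
        smul_eq_mul, Pi.zero_apply, Function.comp_apply]
      ring
    · rw [LinearMap.mem_ker] at hf
      ext q
      have hq := congrFun hf q
      simp only [LinearMap.add_apply, Module.End.one_apply, Pi.add_apply, pull_apply,
        Pi.zero_apply, Function.comp_apply] at hq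
      simp only [hp, LinearMap.smul_apply, LinearMap.sub_apply, Module.End.one_apply,
        LinearMap.add_apply, Pi.add_apply,
        Pi.smul_apply, Pi.sub_apply, pull_apply, smul_eq_mul, Function.comp_apply]
      linear_combination (-(3⁻¹ : ℂ)) * hq
  have hfix : Fintype.card {q : Q // (σ ∘ σ) q = q} = Fintype.card {q : Q // σ q = q} := by
    apply Fintype.card_congr
    refine Equiv.subtypeEquivRight fun q => ?_
    constructor
    · intro hq
      have h1 : σ (σ (σ q)) = σ q := congrArg σ hq
      rw [h] at h1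
      exact h1.symm
    · intro hq
      simp only [Function.comp_apply, hq]
  have htr := hproj.trace
  rw [hp, map_sub, map_smul, map_add, map_add, LinearMap.trace_one, trace_pull, trace_pull,
    Module.finrank_fintype_fun_eq_card, smul_eq_mul, hfix] at htr
  have : (3 * finrank ℂ (LinearMap.ker (1 + pull σ + pull (σ ∘ σ)))
      + 2 * Fintype.card {q : Q // σ q = q} : ℂ) = (2 * Fintype.card Q : ℂ) := by
    rw [← htr]; ring
  exact_mod_cast this

end PermTrace

end Fermat.Agent.H28
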