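import Mathlib
import Fermat.Agent.H28.Cocycle
import Fermat.Agent.H28.PermTrace

/-!
# An upper bound for the dimension of the space of parabolic homomorphisms (helper28, S21-D)

Abstract setting: `G` a group generated by `S` and `U = S * T`, `Γ` a subgroup of finite index,
`Par` a conjugation-invariant subset of `G` containing `S * S`, `U * U * U` and all `T ^ n`.
If `S * S` and `U * U * U` act trivially on `G ⧸ Γ` then the space `P` of homomorphisms
`Γ → ℂ` vanishing on `Γ ∩ Par` satisfies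
`6 dim P + 3 #Fix(S) + 4 #Fix(U) + 6 #(T-orbits) ≤ [G : Γ] + 12`.
-/

namespace Fermat.Agent.H28

open Module

section LinAlg

/-- Rank–nullity bookkeeping. -/
lemma finrank_add_le_of_comp_eq_zero {X Y Z : Type*} [AddCommGroup X] [Module ℂ X]
    [AddCommGroup Y] [Module ℂ Y] [Module.Finite ℂ Y]
    [AddCommGroup Z] [Module ℂ Z] [Module.Finite ℂ Z]
    (J : X →ₗ[ℂ] Y) (hJ : Function.Injective J) (Λ : Y →ₗ[ℂ] Z) (hΛJ : ∀ x, Λ (J x) = 0)
    (e : Z) (hrange : LinearMap.range Λ ⊔ Submodule.span ℂ {e} = ⊤) :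
    finrank ℂ X + finrank ℂ Z ≤ finrank ℂ Y + 1 := by
  have h1 : finrank ℂ X ≤ finrank ℂ (LinearMap.ker Λ) := by
    let J' : X →ₗ[ℂ] LinearMap.ker Λ := J.codRestrict (LinearMap.ker Λ) (fun x => hΛJ x)
    have hJ' : Function.Injective J' := by
      intro a b hab
      apply hJ
      exact congrArg Subtype.val hab
    exact LinearMap.finrank_le_finrank_of_injective hJ'
  have h2 := LinearMap.finrank_range_add_finrank_ker Λ
  have h3 : finrank ℂ Z ≤ finrank ℂ (LinearMap.range Λ) + 1 := by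
    have h4 : finrank ℂ (⊤ : Submodule ℂ Z) = finrank ℂ Z := finrank_top ℂ Z
    rw [← h4, ← hrange]
    refine (Submodule.finrank_add_le_finrank_add_finrank _ _).trans ?_
    have h5 : finrank ℂ (Submodule.span ℂ {e}) ≤ 1 := by
      refine (finrank_span_le_card ({e} : Set Z)).trans ?_
      simp
    omega
  omega

end LinAlg

section FiberSum

variable {Q O : Type*} [Fintype Q]

open scoped Classical in
/-- Sum over the fibres of a map. -/
noncomputable def fiberSum (π : Q → O) : (Q → ℂ) →ₗ[ℂ] (O → ℂ) where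
  toFun f := fun o => ∑ q, if π q = o then f q else 0
  map_add' f g := by
    ext o
    simp only [Pi.add_apply, ← Finset.sum_add_distrib]
    refine Finset.sum_congr rfl fun q _ => ?_
    split_ifs <;> simp
  map_smul' c f := by
    ext o
    simp only [Pi.smul_apply, smul_eq_mul, RingHom.id_apply, Finset.mul_sum]
    refine Finset.sum_congr rfl fun q _ => ?_
    split_ifs <;> simp

open scoped Classical in
lemma fiberSum_apply (π : Q → O) (f : Q → ℂ) (o : O) :
    fiberSum π f o = ∑ q, if π q = o then f q else 0 := rfl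

lemma fiberSum_single [DecidableEq Q] [DecidableEq O] (π : Q → O) (q : Q) :
    fiberSum π (Pi.single q 1) = Pi.single (π q) 1 := by
  ext o
  rw [fiberSum_apply]
  simp only [Pi.single_apply]
  rw [Finset.sum_eq_single q]
  · simp [eq_comm]
  · intro b _ hb
    simp [hb]
  · intro h
    exact absurd (Finset.mem_univ q) h

lemma fiberSum_pull (π : Q → O) (σ : Equiv.Perm Q) (hσ : ∀ q, π (σ q) = π q) (f : Q → ℂ) :
    fiberSum π (pull σ f) = fiberSum π f := by
  classical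
  ext o
  rw [fiberSum_apply, fiberSum_apply]
  rw [← Equiv.sum_comp σ (fun q => if π q = o then f q else 0)]
  refine Finset.sum_congr rfl fun q _ => ?_
  simp only [hσ, pull_apply]

end FiberSum

section Zmap

variable {G : Type*} [Group G] (Γ : Subgroup G)

/-- The cochain of `φ` at `g`, as a linear map in `φ`. -/
noncomputable def cochL (g : G) : (Additive Γ →+ ℂ) →ₗ[ℂ] ((G ⧸ Γ) → ℂ) where
  toFun φ := fun q => coch Γ φ g q
  map_add' φ ψ := by ext q; rfl
  map_smul' c φ := by ext q; rfl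

/-- The cocycle `g ↦ coch φ g + (β ∘ g - β)` attached to a pair `(φ, β)`. -/
noncomputable def zmap (g : G) :
    ((Additive Γ →+ ℂ) × ((G ⧸ Γ) → ℂ)) →ₗ[ℂ] ((G ⧸ Γ) → ℂ) :=
  cochL Γ g ∘ₗ LinearMap.fst ℂ _ _ + (pull (fun q => g • q) - 1) ∘ₗ LinearMap.snd ℂ _ _

lemma zmap_apply (g : G) (x : (Additive Γ →+ ℂ) × ((G ⧸ Γ) → ℂ)) (q : G ⧸ Γ) :
    zmap Γ g x q = coch Γ x.1 g q + (x.2 (g • q) - x.2 q) := rfl

lemma zmap_mul (g h : G) (x : (Additive Γ →+ ℂ) × ((G ⧸ Γ) → ℂ)) (q : G ⧸ Γ) :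
    zmap Γ (g * h) x q = zmap Γ g x (h • q) + zmap Γ h x q := by
  simp only [zmap_apply, coch_mul, mul_smul]
  ring

lemma zmap_one (x : (Additive Γ →+ ℂ) × ((G ⧸ Γ) → ℂ)) : zmap Γ 1 x = 0 := by
  ext q
  simp [zmap_apply, coch_one]

lemma zmap_inv (g : G) (x : (Additive Γ →+ ℂ) × ((G ⧸ Γ) → ℂ)) (q : G ⧸ Γ) :
    zmap Γ g⁻¹ x q = - zmap Γ g x (g⁻¹ • q) := by
  have h := zmap_mul Γ g g⁻¹ x q
  rw [mul_inv_cancel, zmap_one] at h
  simp only [Pi.zero_apply] at h
  linear_combination -h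

lemma zmap_pow (g : G) (n : ℕ) (x : (Additive Γ →+ ℂ) × ((G ⧸ Γ) → ℂ)) (q : G ⧸ Γ) :
    zmap Γ (g ^ n) x q = ∑ i ∈ Finset.range n, zmap Γ g x (g ^ i • q) := by
  induction n with
  | zero => simp [zmap_one]
  | succ n ih =>
    rw [pow_succ', zmap_mul, Finset.sum_range_succ, ih, add_comm]

/-- The predicate "`φ` vanishes on `Γ ∩ Par`". -/
def KillsPar (Par : Set G) (φ : Additive Γ →+ ℂ) : Prop :=
  ∀ γ : Γ, (γ : G) ∈ Par → φ (Additive.ofMul γ) = 0

variable {Γ}

lemma zmap_eq_zero_of_fixed {Par : Set G} (hconj : ∀ g x : G, x ∈ Par → g⁻¹ * x * g ∈ Par)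
    {x : (Additive Γ →+ ℂ) × ((G ⧸ Γ) → ℂ)} (hx : KillsPar Γ Par x.1)
    {g : G} (hg : g ∈ Par) {q : G ⧸ Γ} (hq : g • q = q) : zmap Γ g x q = 0 := by
  rw [zmap_apply, hq, sub_self, add_zero]
  unfold coch
  apply hx
  rw [coe_cocyc_of_smul_eq Γ hq]
  exact hconj _ _ hg

lemma zmap_eq_zero_of_closure {S U : G} (hgen : Subgroup.closure {S, U} = ⊤)
    {x : (Additive Γ →+ ℂ) × ((G ⧸ Γ) → ℂ)} (hS : zmap Γ S x = 0) (hU : zmap Γ U x = 0)
    (g : G) : zmap Γ g x = 0 := by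
  have hg : g ∈ Subgroup.closure {S, U} := by rw [hgen]; trivial
  induction hg using Subgroup.closure_induction with
  | mem y hy =>
    rcases hy with rfl | rfl
    · exact hS
    · exact hU
  | one => exact zmap_one Γ x
  | mul a b _ _ ha hb =>
    ext q
    rw [zmap_mul, ha, hb]
    simp
  | inv a _ ha =>
    ext q
    rw [zmap_inv, ha]
    simp

lemma eq_zero_of_zmap_eq_zero {x : (Additive Γ →+ ℂ) × ((G ⧸ Γ) → ℂ)}
    (h : ∀ g : G, zmap Γ g x = 0) (h0 : x.2 ((1 : G) : G ⧸ Γ) = 0) : x = 0 := by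
  have hφ : x.1 = 0 := by
    refine AddMonoidHom.ext fun γ => ?_
    obtain ⟨γ, rfl⟩ : ∃ γ' : Γ, Additive.ofMul γ' = γ := ⟨Additive.toMul γ, rfl⟩
    have h1 := congrFun (h (γ : G)) ((1 : G) : G ⧸ Γ)
    have hfix : (γ : G) • (((1 : G) : G ⧸ Γ)) = ((1 : G) : G ⧸ Γ) := by
      rw [MulAction.Quotient.smul_mk, QuotientGroup.eq]
      simp
    rw [zmap_apply, hfix, sub_self, add_zero] at h1
    simp only [Pi.zero_apply] at h1
    unfold coch at h1
    set s : G := Quotient.out (((1 : G) : G ⧸ Γ)) with hs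
    have hsmem : s ∈ Γ := by
      have : ((s : G) : G ⧸ Γ) = ((1 : G) : G ⧸ Γ) := QuotientGroup.out_eq' _
      rw [QuotientGroup.eq] at this
      simpa using Γ.inv_mem this
    have hc : cocyc Γ (γ : G) ((1 : G) : G ⧸ Γ) = (⟨s, hsmem⟩ : Γ)⁻¹ * γ * ⟨s, hsmem⟩ := by
      apply Subtype.ext
      rw [coe_cocyc_of_smul_eq Γ hfix]
      rfl
    rw [hc, ofMul_mul, ofMul_mul, ofMul_inv, map_add, map_add, map_neg] at h1
    simp only [AddMonoidHom.zero_apply]
    linear_combination h1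
  have hβ : x.2 = 0 := by
    ext q
    induction q using QuotientGroup.induction_on with
    | H g =>
      have h1 := congrFun (h g) ((1 : G) : G ⧸ Γ)
      rw [zmap_apply, hφ] at h1
      have hg : g • (((1 : G) : G ⧸ Γ)) = (g : G ⧸ Γ) := by
        rw [MulAction.Quotient.smul_mk]
        simp
      rw [hg, h0] at h1
      simpa [coch] using h1
  exact Prod.ext hφ hβ

end Zmap

section Orbits

variable {G : Type*} [Group G] {Γ : Subgroup G} [Fintype (G ⧸ Γ)]

/-- The projection onto the set of orbits of the cyclic group generated by `T`. -/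
def orbProj (Γ : Subgroup G) (T : G) :
    (G ⧸ Γ) → MulAction.orbitRel.Quotient (Subgroup.zpowers T) (G ⧸ Γ) :=
  fun q => Quotient.mk'' q

omit [Fintype (G ⧸ Γ)] in
lemma orbProj_pow_smul (T : G) (n : ℕ) (q : G ⧸ Γ) :
    orbProj Γ T (T ^ n • q) = orbProj Γ T q := by
  apply Quotient.sound'
  exact ⟨⟨T ^ n, Subgroup.pow_mem _ (Subgroup.mem_zpowers T) n⟩, rfl⟩

omit [Fintype (G ⧸ Γ)] in
lemma orbProj_smul (T : G) (q : G ⧸ Γ) :
    orbProj Γ T (T • q) = orbProj Γ T q := by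
  simpa using orbProj_pow_smul (Γ := Γ) T 1 q

lemma exists_pow_smul_eq (T : G) : ∃ n : ℕ, 0 < n ∧ ∀ q : G ⧸ Γ, T ^ n • q = q := by
  classical
  refine ⟨Fintype.card (Equiv.Perm (G ⧸ Γ)), Fintype.card_pos, fun q => ?_⟩
  have h : (MulAction.toPermHom G (G ⧸ Γ) T) ^ Fintype.card (Equiv.Perm (G ⧸ Γ)) = 1 :=
    pow_card_eq_one
  rw [← map_pow] at h
  have h2 := congrArg (fun σ : Equiv.Perm (G ⧸ Γ) => σ q) h
  simpa using h2

lemma fiberSum_pull_pow (T : G) (n : ℕ) (f : (G ⧸ Γ) → ℂ) :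
    fiberSum (orbProj Γ T) (pull (fun q => T ^ n • q) f) = fiberSum (orbProj Γ T) f :=
  fiberSum_pull (orbProj Γ T) (MulAction.toPerm (T ^ n)) (fun q => orbProj_pow_smul T n q) f

lemma fiberSum_pull_T (T : G) (f : (G ⧸ Γ) → ℂ) :
    fiberSum (orbProj Γ T) (pull (fun q => T • q) f) = fiberSum (orbProj Γ T) f :=
  fiberSum_pull (orbProj Γ T) (MulAction.toPerm T) (fun q => orbProj_smul T q) f

lemma fiberSum_zmap_T {Par : Set G} (hconj : ∀ g x : G, x ∈ Par → g⁻¹ * x * g ∈ Par)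
    {T : G} (hT : ∀ n : ℕ, T ^ n ∈ Par)
    {x : (Additive Γ →+ ℂ) × ((G ⧸ Γ) → ℂ)} (hx : KillsPar Γ Par x.1) :
    fiberSum (orbProj Γ T) (zmap Γ T x) = 0 := by
  obtain ⟨n, hn, hfix⟩ := exists_pow_smul_eq (Γ := Γ) T
  have h1 : ∑ i ∈ Finset.range n, pull (fun q => T ^ i • q) (zmap Γ T x) = 0 := by
    ext q
    simp only [Finset.sum_apply, pull_apply, Pi.zero_apply]
    rw [← zmap_pow]
    exact zmap_eq_zero_of_fixed hconj hx (hT n) (hfix q)
  have h2 := congrArg (fiberSum (orbProj Γ T)) h1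
  rw [map_sum, map_zero] at h2
  simp only [fiberSum_pull_pow] at h2
  rw [Finset.sum_const, Finset.card_range] at h2
  rcases smul_eq_zero.mp h2 with h | h
  · omega
  · exact h

lemma fiberSum_zmap_U_sub_S {Par : Set G} (hconj : ∀ g x : G, x ∈ Par → g⁻¹ * x * g ∈ Par)
    {S T U : G} (hU : U = S * T) (hT : ∀ n : ℕ, T ^ n ∈ Par)
    {x : (Additive Γ →+ ℂ) × ((G ⧸ Γ) → ℂ)} (hx : KillsPar Γ Par x.1) :
    fiberSum (orbProj Γ T) (zmap Γ U x - zmap Γ S x) = 0 := by
  have h1 : zmap Γ U x = pull (fun q => T • q) (zmap Γ S x) + zmap Γ T x := by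
    ext q
    rw [hU, zmap_mul]
    rfl
  rw [h1, map_sub, map_add, fiberSum_pull_T, fiberSum_zmap_T hconj hT hx]
  simp

end Orbits

section Range

variable {G : Type*} [Group G] {Γ : Subgroup G} [Fintype (G ⧸ Γ)]

/-- The kernel of `1 + S^*`. -/
noncomputable def kerA (Γ : Subgroup G) (S : G) : Submodule ℂ ((G ⧸ Γ) → ℂ) :=
  LinearMap.ker (1 + pull (fun q : G ⧸ Γ => S • q))

/-- The kernel of `1 + U^* + U^* U^*`. -/
noncomputable def kerB (Γ : Subgroup G) (U : G) : Submodule ℂ ((G ⧸ Γ) → ℂ) :=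
  LinearMap.ker (1 + pull (fun q : G ⧸ Γ => U • q)
    + pull (fun q : G ⧸ Γ => U • q) ∘ₗ pull (fun q : G ⧸ Γ => U • q))

omit [Fintype (G ⧸ Γ)] in
lemma mem_kerA_iff {S : G} {f : (G ⧸ Γ) → ℂ} :
    f ∈ kerA Γ S ↔ ∀ q, f q + f (S • q) = 0 := by
  unfold kerA
  rw [LinearMap.mem_ker]
  constructor
  · intro h q
    exact congrFun h q
  · intro h
    ext q
    exact h q

omit [Fintype (G ⧸ Γ)] in
lemma mem_kerB_iff {U : G} {f : (G ⧸ Γ) → ℂ} :
    f ∈ kerB Γ U ↔ ∀ q, f q + f (U • q) + f (U • U • q) = 0 := by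
  unfold kerB
  rw [LinearMap.mem_ker]
  constructor
  · intro h q
    exact congrFun h q
  · intro h
    ext q
    exact h q

/-- The map `(a, b) ↦ (orbit sums of b - a)` on `ker A × ker B`. -/
noncomputable def lam (Γ : Subgroup G) [Fintype (G ⧸ Γ)] (S T U : G) :
    (kerA Γ S × kerB Γ U) →ₗ[ℂ]
      (MulAction.orbitRel.Quotient (Subgroup.zpowers T) (G ⧸ Γ) → ℂ) :=
  fiberSum (orbProj Γ T) ∘ₗ
    ((kerB Γ U).subtype ∘ₗ LinearMap.snd ℂ _ _ - (kerA Γ S).subtype ∘ₗ LinearMap.fst ℂ _ _)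

lemma lam_apply (S T U : G) (x : kerA Γ S × kerB Γ U) :
    lam Γ S T U x = fiberSum (orbProj Γ T) ((x.2 : (G ⧸ Γ) → ℂ) - (x.1 : (G ⧸ Γ) → ℂ)) := rfl

lemma fiberSum_sub_pull_mem_range {S T U : G} (hgen : Subgroup.closure {S, U} = ⊤)
    (hS2 : ∀ q : G ⧸ Γ, S • S • q = q) (hU3 : ∀ q : G ⧸ Γ, U • U • U • q = q)
    (g : G) : ∀ f : (G ⧸ Γ) → ℂ,
      fiberSum (orbProj Γ T) (f - pull (fun q => g • q) f) ∈ LinearMap.range (lam Γ S T U) := by
  have hg : g ∈ Subgroup.closure {S, U} := by rw [hgen]; trivial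
  induction hg using Subgroup.closure_induction with
  | mem y hy =>
    intro f
    rcases hy with rfl | rfl
    · have hmem : f - pull (fun q : G ⧸ Γ => y • q) f ∈ kerA Γ y := by
        rw [mem_kerA_iff]
        intro q
        simp only [Pi.sub_apply, pull_apply, hS2]
        ring
      refine ⟨(-⟨_, hmem⟩, 0), ?_⟩
      rw [lam_apply]
      simp
    · have hmem : f - pull (fun q : G ⧸ Γ => y • q) f ∈ kerB Γ y := by
        rw [mem_kerB_iff]
        intro q
        simp only [Pi.sub_apply, pull_apply, hU3]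
        ring
      refine ⟨(0, ⟨_, hmem⟩), ?_⟩
      rw [lam_apply]
      simp
  | one =>
    intro f
    have : f - pull (fun q : G ⧸ Γ => (1 : G) • q) f = 0 := by
      ext q; simp
    rw [this, map_zero]
    exact Submodule.zero_mem _
  | mul a b _ _ ha hb =>
    intro f
    have : f - pull (fun q : G ⧸ Γ => (a * b) • q) f
        = (f - pull (fun q : G ⧸ Γ => a • q) f)
          + (pull (fun q : G ⧸ Γ => a • q) f
              - pull (fun q : G ⧸ Γ => b • q) (pull (fun q : G ⧸ Γ => a • q) f)) := by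
      ext q; simp [mul_smul]
    rw [this, map_add]
    exact Submodule.add_mem _ (ha f) (hb _)
  | inv a _ ha =>
    intro f
    have : f - pull (fun q : G ⧸ Γ => a⁻¹ • q) f
        = - (pull (fun q : G ⧸ Γ => a⁻¹ • q) f
              - pull (fun q : G ⧸ Γ => a • q) (pull (fun q : G ⧸ Γ => a⁻¹ • q) f)) := by
      ext q; simp
    rw [this, map_neg]
    exact Submodule.neg_mem _ (ha _)

open scoped Classical in
lemma range_lam_sup_span {S T U : G} (hgen : Subgroup.closure {S, U} = ⊤)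
    (hS2 : ∀ q : G ⧸ Γ, S • S • q = q) (hU3 : ∀ q : G ⧸ Γ, U • U • U • q = q) :
    LinearMap.range (lam Γ S T U)
      ⊔ Submodule.span ℂ {(Pi.single (orbProj Γ T ((1 : G) : G ⧸ Γ)) (1 : ℂ) :
          MulAction.orbitRel.Quotient (Subgroup.zpowers T) (G ⧸ Γ) → ℂ)} = ⊤ := by
  have : Finite (MulAction.orbitRel.Quotient (Subgroup.zpowers T) (G ⧸ Γ)) :=
    Quotient.finite _
  have : Fintype (MulAction.orbitRel.Quotient (Subgroup.zpowers T) (G ⧸ Γ)) :=
    Fintype.ofFinite _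
  rw [eq_top_iff]
  intro v _
  have hsingle : ∀ o : MulAction.orbitRel.Quotient (Subgroup.zpowers T) (G ⧸ Γ),
      (Pi.single o (1 : ℂ) : MulAction.orbitRel.Quotient (Subgroup.zpowers T) (G ⧸ Γ) → ℂ)
        ∈ LinearMap.range (lam Γ S T U)
          ⊔ Submodule.span ℂ {(Pi.single (orbProj Γ T ((1 : G) : G ⧸ Γ)) (1 : ℂ) :
            MulAction.orbitRel.Quotient (Subgroup.zpowers T) (G ⧸ Γ) → ℂ)} := by
    intro o
    induction o using Quotient.inductionOn' with
    | h q =>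
      induction q using QuotientGroup.induction_on with
      | H g =>
        have h1 : (Pi.single ((g : G) : G ⧸ Γ) (1 : ℂ) : (G ⧸ Γ) → ℂ)
            = pull (fun q : G ⧸ Γ => g⁻¹ • q) (Pi.single ((1 : G) : G ⧸ Γ) (1 : ℂ)) := by
          ext r
          simp only [pull_apply, Pi.single_apply]
          have : (g⁻¹ • r = ((1 : G) : G ⧸ Γ)) ↔ r = ((g : G) : G ⧸ Γ) := by
            rw [inv_smul_eq_iff, MulAction.Quotient.smul_mk]
            simp
          simp only [this]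
        have h2 : (Pi.single (Quotient.mk'' ((g : G) : G ⧸ Γ)) (1 : ℂ) :
            MulAction.orbitRel.Quotient (Subgroup.zpowers T) (G ⧸ Γ) → ℂ)
            = fiberSum (orbProj Γ T) (Pi.single ((g : G) : G ⧸ Γ) (1 : ℂ)) := by
          rw [fiberSum_single]
          rfl
        rw [h2, h1]
        have h3 := fiberSum_sub_pull_mem_range (T := T) hgen hS2 hU3 g⁻¹
          (Pi.single ((1 : G) : G ⧸ Γ) (1 : ℂ))
        rw [map_sub, fiberSum_single] at h3
        have h4 : fiberSum (orbProj Γ T)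
            (pull (fun q : G ⧸ Γ => g⁻¹ • q) (Pi.single ((1 : G) : G ⧸ Γ) (1 : ℂ)))
            = - (Pi.single (orbProj Γ T ((1 : G) : G ⧸ Γ)) (1 : ℂ)
                  - fiberSum (orbProj Γ T)
                    (pull (fun q : G ⧸ Γ => g⁻¹ • q) (Pi.single ((1 : G) : G ⧸ Γ) (1 : ℂ))))
              + Pi.single (orbProj Γ T ((1 : G) : G ⧸ Γ)) (1 : ℂ) := by
          abel
        rw [h4]
        refine Submodule.add_mem_sup (Submodule.neg_mem _ h3) ?_
        exact Submodule.subset_span rfl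
  have hv : v = ∑ o, v o • (Pi.single o (1 : ℂ) :
      MulAction.orbitRel.Quotient (Subgroup.zpowers T) (G ⧸ Γ) → ℂ) := by
    ext o
    simp [Finset.sum_apply, Pi.single_apply]
  rw [hv]
  exact Submodule.sum_mem _ fun o _ => Submodule.smul_mem _ _ (hsingle o)

end Range

section MainTheorem

variable {G : Type*} [Group G]

/-- **Abstract bound** for the dimension of the space of parabolic homomorphisms. -/
theorem parabolic_bound (Γ : Subgroup G) [Finite (G ⧸ Γ)]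
    (S T U : G) (hU : U = S * T) (hgen : Subgroup.closure {S, U} = ⊤)
    (Par : Set G) (hconj : ∀ g x : G, x ∈ Par → g⁻¹ * x * g ∈ Par)
    (hS : S * S ∈ Par) (hUU : U * U * U ∈ Par) (hT : ∀ n : ℕ, T ^ n ∈ Par)
    (hS2 : ∀ q : G ⧸ Γ, S • S • q = q) (hU3 : ∀ q : G ⧸ Γ, U • U • U • q = q)
    (P : Submodule ℂ (Additive Γ →+ ℂ)) (hP : ∀ φ ∈ P, KillsPar Γ Par φ) :
    Module.Finite ℂ P ∧
    6 * finrank ℂ P + 3 * Nat.card {q : G ⧸ Γ // S • q = q}
      + 4 * Nat.card {q : G ⧸ Γ // U • q = q}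
      + 6 * Nat.card (MulAction.orbitRel.Quotient (Subgroup.zpowers T) (G ⧸ Γ))
      ≤ Nat.card (G ⧸ Γ) + 12 := by
  classical
  have : Fintype (G ⧸ Γ) := Fintype.ofFinite _
  have : Finite (MulAction.orbitRel.Quotient (Subgroup.zpowers T) (G ⧸ Γ)) :=
    Quotient.finite _
  have : Fintype (MulAction.orbitRel.Quotient (Subgroup.zpowers T) (G ⧸ Γ)) :=
    Fintype.ofFinite _
  let V₀ : Submodule ℂ ((G ⧸ Γ) → ℂ) :=
    LinearMap.ker (LinearMap.proj ((1 : G) : G ⧸ Γ) : ((G ⧸ Γ) → ℂ) →ₗ[ℂ] ℂ)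
  let ι : (P × V₀) →ₗ[ℂ] ((Additive Γ →+ ℂ) × ((G ⧸ Γ) → ℂ)) :=
    LinearMap.prodMap P.subtype V₀.subtype
  have hι : ∀ x, KillsPar Γ Par (ι x).1 := fun x => hP _ x.1.2
  have hA : ∀ x, (zmap Γ S ∘ₗ ι) x ∈ kerA Γ S := by
    intro x
    rw [mem_kerA_iff]
    intro q
    have h1 := zmap_mul Γ S S (ι x) q
    rw [zmap_eq_zero_of_fixed hconj (hι x) hS (by rw [mul_smul]; exact hS2 q)] at h1
    simp only [LinearMap.comp_apply]
    linear_combination -h1
  have hB : ∀ x, (zmap Γ U ∘ₗ ι) x ∈ kerB Γ U := by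
    intro x
    rw [mem_kerB_iff]
    intro q
    have h1 := zmap_mul Γ (U * U) U (ι x) q
    rw [zmap_eq_zero_of_fixed hconj (hι x) hUU
      (by rw [mul_smul, mul_smul]; exact hU3 q), zmap_mul] at h1
    simp only [LinearMap.comp_apply]
    linear_combination -h1
  let J : (P × V₀) →ₗ[ℂ] (kerA Γ S × kerB Γ U) :=
    LinearMap.prod ((zmap Γ S ∘ₗ ι).codRestrict (kerA Γ S) hA)
      ((zmap Γ U ∘ₗ ι).codRestrict (kerB Γ U) hB)
  have hJ : Function.Injective J := by
    rw [injective_iff_map_eq_zero]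
    intro x hx
    have h1 : zmap Γ S (ι x) = 0 :=
      congrArg (fun y : kerA Γ S × kerB Γ U => (y.1 : (G ⧸ Γ) → ℂ)) hx
    have h2 : zmap Γ U (ι x) = 0 :=
      congrArg (fun y : kerA Γ S × kerB Γ U => (y.2 : (G ⧸ Γ) → ℂ)) hx
    have h0 : (ι x).2 ((1 : G) : G ⧸ Γ) = 0 := x.2.2
    have h3 := eq_zero_of_zmap_eq_zero (zmap_eq_zero_of_closure hgen h1 h2) h0
    exact Prod.ext (Subtype.ext (congrArg Prod.fst h3)) (Subtype.ext (congrArg Prod.snd h3))
  have hΛJ : ∀ x, lam Γ S T U (J x) = 0 := by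
    intro x
    rw [lam_apply]
    exact fiberSum_zmap_U_sub_S hconj hU hT (hι x)
  have key := finrank_add_le_of_comp_eq_zero J hJ (lam Γ S T U) hΛJ _
    (range_lam_sup_span hgen hS2 hU3)
  have hfin : Module.Finite ℂ (P × V₀) := Module.Finite.of_injective J hJ
  have hfinP : Module.Finite ℂ P :=
    Module.Finite.of_injective (LinearMap.inl ℂ P V₀) LinearMap.inl_injective
  refine ⟨hfinP, ?_⟩
  have hV₀ : finrank ℂ V₀ + 1 = Nat.card (G ⧸ Γ) := by
    have h1 := LinearMap.finrank_range_add_finrank_ker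
      (LinearMap.proj ((1 : G) : G ⧸ Γ) : ((G ⧸ Γ) → ℂ) →ₗ[ℂ] ℂ)
    rw [LinearMap.range_eq_top.mpr (LinearMap.proj_surjective _), finrank_top,
      Module.finrank_self, Module.finrank_fintype_fun_eq_card, ← Nat.card_eq_fintype_card] at h1
    have h1' : 1 + finrank ℂ V₀ = Nat.card (G ⧸ Γ) := h1
    omega
  have hA' := two_mul_finrank_ker_one_add_pull (fun q : G ⧸ Γ => S • q) hS2
  have hB' := three_mul_finrank_ker_one_add_pull (fun q : G ⧸ Γ => U • q) hU3
  rw [← Nat.card_eq_fintype_card, ← Nat.card_eq_fintype_card] at hA' hB'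
  rw [Module.finrank_prod, Module.finrank_prod, Module.finrank_fintype_fun_eq_card,
    ← Nat.card_eq_fintype_card] at key
  have hkA : finrank ℂ (kerA Γ S)
      = finrank ℂ (LinearMap.ker (1 + pull (fun q : G ⧸ Γ => S • q))) := rfl
  have hkB : finrank ℂ (kerB Γ U)
      = finrank ℂ (LinearMap.ker (1 + pull (fun q : G ⧸ Γ => U • q)
          + pull (fun q : G ⧸ Γ => U • q) ∘ₗ pull (fun q : G ⧸ Γ => U • q))) := rfl
  rw [hkA, hkB] at key
  omega

end MainTheorem

end Fermat.Agent.H28
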