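import Mathlib
import Fermat.Prelude.Def_ModularCurve_PeriodMap
import Fermat.Prelude.Def_ModularCurve_GenusNumerics
import Fermat.Agent.H28.ParabolicBound
import Fermat.Agent.H57.Gamma0Index
import Fermat.Agent.H42.FixedPoints
import Fermat.Agent.H73.CuspOrbits

/-!
# `dim parabolicHoms ≤ 2 * genusFormula N` (helper28, S21-D)
-/

set_option autoImplicit false

namespace Fermat.Agent.H28

open CongruenceSubgroup MatrixGroups ModularCurve Module

/-- The set of elements of `SL(2, ℤ)` with `trace ^ 2 = 4`. -/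
def parSet : Set SL(2, ℤ) := {g | (g : Matrix (Fin 2) (Fin 2) ℤ).trace ^ 2 = 4}

lemma mem_parSet_iff (g : SL(2, ℤ)) :
    g ∈ parSet ↔ (g : Matrix (Fin 2) (Fin 2) ℤ).trace ^ 2 = 4 := Iff.rfl

lemma parSet_conj (g x : SL(2, ℤ)) (hx : x ∈ parSet) : g⁻¹ * x * g ∈ parSet := by
  rw [mem_parSet_iff] at hx ⊢
  have : ((g⁻¹ * x * g : SL(2, ℤ)) : Matrix (Fin 2) (Fin 2) ℤ).trace
      = (x : Matrix (Fin 2) (Fin 2) ℤ).trace := by
    rw [Matrix.SpecialLinearGroup.coe_mul, Matrix.SpecialLinearGroup.coe_mul,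
      Matrix.trace_mul_cycle, ← Matrix.SpecialLinearGroup.coe_mul, mul_inv_cancel,
      Matrix.SpecialLinearGroup.coe_one, one_mul]
  rw [this, hx]

lemma S_mul_S_eq_neg_one : ModularGroup.S * ModularGroup.S = (-1 : SL(2, ℤ)) := by
  decide

lemma ST_cube_eq_neg_one :
    (ModularGroup.S * ModularGroup.T) * (ModularGroup.S * ModularGroup.T)
      * (ModularGroup.S * ModularGroup.T) = (-1 : SL(2, ℤ)) := by
  decide

lemma neg_one_mem_parSet : (-1 : SL(2, ℤ)) ∈ parSet := by
  rw [mem_parSet_iff]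
  decide

lemma T_pow_mem_parSet (n : ℕ) : ModularGroup.T ^ n ∈ parSet := by
  rw [mem_parSet_iff, ← zpow_natCast, ModularGroup.coe_T_zpow]
  simp [Matrix.trace_fin_two]

lemma neg_one_smul_coset (N : ℕ) (q : SL(2, ℤ) ⧸ Gamma0 N) : (-1 : SL(2, ℤ)) • q = q := by
  induction q using QuotientGroup.induction_on with
  | H g =>
    rw [MulAction.Quotient.smul_mk, QuotientGroup.eq]
    have h1 : ((-1 : SL(2, ℤ)) * g)⁻¹ * g = (-1 : SL(2, ℤ)) := by
      have h2 : (-1 : SL(2, ℤ)) * g = g * (-1 : SL(2, ℤ)) := by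
        rw [neg_mul, mul_neg, one_mul, mul_one]
      have h3 : (-1 : SL(2, ℤ))⁻¹ = -1 := by decide
      rw [h2, mul_inv_rev, mul_assoc, inv_mul_cancel, mul_one, h3]
    rw [smul_eq_mul, h1, Gamma0_mem]
    simp

lemma closure_S_ST :
    Subgroup.closure ({ModularGroup.S, ModularGroup.S * ModularGroup.T} : Set SL(2, ℤ)) = ⊤ := by
  rw [eq_top_iff, ← SpecialLinearGroup.SL2Z_generators, Subgroup.closure_le]
  intro x hx
  rcases hx with rfl | hx
  · exact Subgroup.subset_closure (by simp)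
  · have hx' : x = ModularGroup.T := hx
    subst hx'
    have h1 : ModularGroup.S ∈ Subgroup.closure
        ({ModularGroup.S, ModularGroup.S * ModularGroup.T} : Set SL(2, ℤ)) :=
      Subgroup.subset_closure (by simp)
    have h2 : ModularGroup.S * ModularGroup.T ∈ Subgroup.closure
        ({ModularGroup.S, ModularGroup.S * ModularGroup.T} : Set SL(2, ℤ)) :=
      Subgroup.subset_closure (by simp)
    have h3 := Subgroup.mul_mem _ (Subgroup.inv_mem _ h1) h2
    rwa [inv_mul_cancel_left] at h3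

/-- The abstract bound for `Γ₀(N)`. -/
theorem parabolicHoms_bound (N : ℕ) [NeZero N] :
    Module.Finite ℂ (ModularCurve.Period.parabolicHoms ℂ (Gamma0 N) ℂ) ∧
    6 * finrank ℂ (ModularCurve.Period.parabolicHoms ℂ (Gamma0 N) ℂ)
      + 3 * nuTwo N + 4 * nuThree N + 6 * cuspCount N ≤ dedekindPsi N + 12 := by
  have key := parabolic_bound (Gamma0 N) ModularGroup.S ModularGroup.T
    (ModularGroup.S * ModularGroup.T) rfl closure_S_ST parSet parSet_conj
    (by rw [S_mul_S_eq_neg_one]; exact neg_one_mem_parSet)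
    (by rw [ST_cube_eq_neg_one]; exact neg_one_mem_parSet)
    T_pow_mem_parSet
    (fun q => by
      have h := neg_one_smul_coset N q
      rw [← S_mul_S_eq_neg_one, mul_smul] at h
      exact h)
    (fun q => by
      have h := neg_one_smul_coset N q
      rw [← ST_cube_eq_neg_one, mul_smul, mul_smul] at h
      exact h)
    (ModularCurve.Period.parabolicHoms ℂ (Gamma0 N) ℂ)
    (fun φ hφ γ hγ => hφ γ hγ)
  rw [Fermat.Agent.H42.card_fixed_S, Fermat.Agent.H42.card_fixed_ST,
    Fermat.Agent.H73.card_orbits_T] at key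
  have hidx : Nat.card (SL(2, ℤ) ⧸ Gamma0 N) = dedekindPsi N :=
    Fermat.Agent.H57.index_Gamma0 N
  rw [hidx] at key
  exact key

/-- **S21-D**: the space of parabolic homomorphisms `Γ₀(N) → ℂ` has dimension at most
`2 * genusFormula N`. -/
theorem finrank_parabolicHoms_le (N : ℕ) [NeZero N] :
    (finrank ℂ (ModularCurve.Period.parabolicHoms ℂ (Gamma0 N) ℂ) : ℚ) ≤ 2 * genusFormula N := by
  have h := (parabolicHoms_bound N).2
  have h' : (6 * finrank ℂ (ModularCurve.Period.parabolicHoms ℂ (Gamma0 N) ℂ)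
      + 3 * nuTwo N + 4 * nuThree N + 6 * cuspCount N : ℚ) ≤ dedekindPsi N + 12 := by
    exact_mod_cast h
  unfold genusFormula
  linarith

end Fermat.Agent.H28
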