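import Mathlib
import Fermat.Prelude.Def_ModularCurve_PeriodHomPair
import Fermat.Prelude.Def_ModularCurve_GenusNumerics
import Fermat.Agent.H28.S21Dim
import Fermat.Agent.H97.ParabolicPeriod

/-!
# Glue for S21 (helper28, S21-E)

Given injectivity of `periodHomPair` (S21-B) and the dimension formula (S20), the
Eichler–Shimura statement S21 follows from S21-C (range inside the parabolic homomorphisms)
and S21-D (dimension bound for the parabolic homomorphisms).
-/

set_option autoImplicit false

namespace Fermat.Agent.H28

open CongruenceSubgroup MatrixGroups ModularCurve Module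

theorem eichlerShimura_of (N : ℕ) [NeZero N]
    (hinj : Function.Injective (ModularCurve.periodHomPair N))
    (hdim : (Module.finrank ℂ (CuspForm (CongruenceSubgroup.Gamma0 N) 2) : ℚ)
      = ModularCurve.genusFormula N) :
    Function.Injective (ModularCurve.periodHomPair N)
      ∧ LinearMap.range (ModularCurve.periodHomPair N)
          = ModularCurve.Period.parabolicHoms ℂ (CongruenceSubgroup.Gamma0 N) ℂ := by
  refine ⟨hinj, ?_⟩
  have hle := Fermat.Agent.H97.range_periodHomPair_le_parabolicHoms N
  obtain ⟨hfin, -⟩ := parabolicHoms_bound N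
  have hD := finrank_parabolicHoms_le N
  -- finite-dimensionality of the source
  have hfinR : Module.Finite ℂ (LinearMap.range (ModularCurve.periodHomPair N)) :=
    Submodule.finiteDimensional_of_le hle
  have hfinX : Module.Finite ℂ
      (CuspForm (CongruenceSubgroup.Gamma0 N) 2 × CuspForm (CongruenceSubgroup.Gamma0 N) 2) :=
    Module.Finite.of_injective (ModularCurve.periodHomPair N).rangeRestrict
      (by
        intro a b hab
        apply hinj
        exact congrArg Subtype.val hab)
  have hfinS : Module.Finite ℂ (CuspForm (CongruenceSubgroup.Gamma0 N) 2) :=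
    Module.Finite.of_injective
      (LinearMap.inl ℂ (CuspForm (CongruenceSubgroup.Gamma0 N) 2)
        (CuspForm (CongruenceSubgroup.Gamma0 N) 2)) LinearMap.inl_injective
  have hrange : finrank ℂ (LinearMap.range (ModularCurve.periodHomPair N))
      = 2 * finrank ℂ (CuspForm (CongruenceSubgroup.Gamma0 N) 2) := by
    rw [LinearMap.finrank_range_of_inj hinj, Module.finrank_prod]
    ring
  refine Submodule.eq_of_le_of_finrank_le hle ?_
  have h1 : (finrank ℂ (ModularCurve.Period.parabolicHoms ℂ (CongruenceSubgroup.Gamma0 N) ℂ) : ℚ)
      ≤ (finrank ℂ (LinearMap.range (ModularCurve.periodHomPair N)) : ℚ) := by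
    rw [hrange]
    push_cast
    rw [hdim]
    exact hD
  exact_mod_cast h1

end Fermat.Agent.H28
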